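import Fermat.Agent.GaloisReps.Characters
import Fermat.Agent.RT.Lifting.EigenClass
import Fermat.Agent.RT.Lifting.Defs
import Fermat.Agent.RT.GammaH.Descend
import Fermat.Agent.RT.GammaH.Embed

/-!
# Eigenclasses in stable submodules, and changing the excluded primes

A nonzero stable submodule of `Hom(Γ_H, O)` contains, over `ℂ`, a parabolic eigenclass. When the
residual eigenvalues at the primes of `T \ S` are forced by those outside `T`, the localisations
at the systems outside `S` and outside `T` coincide.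
-/

set_option autoImplicit false

noncomputable section

namespace Fermat.Agent.RT.Lifting

open CongruenceSubgroup MvPolynomial IsLocalRing ModularFormClass ModularCurve.Period
open Fermat.Agent.RT.GammaH
open scoped MatrixGroups ModularForm

section Eigen

variable {O : Type} [CommRing O] [Algebra O ℂ] {L : ℕ} [NeZero L] {S : Finset ℕ}
  {K : Subgroup (ZMod L)ˣ}

/-- A parabolic eigenclass in the complex span of a stable submodule. -/
theorem exists_eigen_of_submodule (hinj : Function.Injective (algebraMap O ℂ))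
    {P : OpRing O L S}
    (hpar : ∀ φ : HomMod O S K ℂ, IsParabolicHom (gammaH L K) (toHomMod.symm (P • φ)))
    {C : Submodule O (HomMod O S K O)} (hC : C ≠ ⊥)
    (hstab : ∀ a : OpRing O L S, ∀ x ∈ C, a • x ∈ C) (hP : ∀ x ∈ C, P • x = 0 → x = 0) :
    ∃ (θ : OpRing O L S →ₐ[O] ℂ) (φ : HomC K), φ ≠ 0 ∧
      φ ∈ parabolicHoms ℂ (gammaH L K) ℂ ∧
      φ ∈ Submodule.span ℂ (toHomC '' (C : Set (HomMod O S K O))) ∧
      (∀ a, opC O S K a φ = θ a • φ) ∧ ∀ a, (∀ x ∈ C, a • x = 0) → θ a = 0 := by
  have : FiniteDimensional ℂ (HomC K) := by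
    obtain ⟨n, γ, hγ⟩ := exists_coords (K := K)
    let ev : HomC K →ₗ[ℂ] (Fin n → ℂ) :=
      { toFun := fun φ i => φ (γ i)
        map_add' := fun _ _ => rfl
        map_smul' := fun _ _ => rfl }
    exact FiniteDimensional.of_injective ev fun φ ψ h => hγ ℂ φ ψ (congrFun h)
  set V : Submodule ℂ (HomC K) :=
    Submodule.span ℂ ((fun x => toHomC (P • x)) '' (C : Set (HomMod O S K O)))
  have hV : V ≠ ⊥ := by
    obtain ⟨x, hx, hx0⟩ := (Submodule.ne_bot_iff C).1 hC
    refine (Submodule.ne_bot_iff V).2 ⟨_, Submodule.subset_span ⟨x, hx, rfl⟩, fun h => hx0 ?_⟩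
    exact hP x hx (toHomC_injective hinj (h.trans (map_zero (toHomC (O := O) (S := S) (K := K))).symm))
  have hinv : ∀ a, ∀ w ∈ V, opC O S K a w ∈ V := fun a w hw => by
    induction hw using Submodule.span_induction with
    | mem v hv =>
      obtain ⟨x, hx, rfl⟩ := hv
      refine Submodule.subset_span ⟨a • x, hstab a x hx, ?_⟩
      show toHomC (P • a • x) = _
      rw [smul_comm, toHomC_smul]
    | zero => rw [map_zero]; exact zero_mem _
    | add x y _ _ hx hy => rw [map_add]; exact add_mem hx hy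
    | smul c x _ hx => rw [map_smul]; exact Submodule.smul_mem _ c hx
  obtain ⟨θ₀, φ, hφV, hφ0, heig⟩ := HeckeDuality.exists_eigenCharacter (opC O S K) V hV hinv
  let θ : OpRing O L S →ₐ[O] ℂ :=
    { θ₀ with
      commutes' := fun c => smul_left_injective ℂ hφ0 (by
        show θ₀ (algebraMap O _ c) • φ = algebraMap O ℂ c • φ
        rw [← heig, MvPolynomial.algebraMap_eq, opC_C, Module.algebraMap_end_apply]) }
  refine ⟨θ, φ, hφ0, ?_, ?_, heig, fun a ha => ?_⟩
  · refine (Submodule.span_le.2 ?_ : V ≤ parabolicHoms ℂ (gammaH L K) ℂ) hφV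
    rintro _ ⟨x, -, rfl⟩
    show toHomC (P • x) ∈ parabolicHoms ℂ (gammaH L K) ℂ
    rw [toHomC_smul]
    exact hpar (toHomMod (toHomC x))
  · refine (Submodule.span_le.2 ?_ : V ≤ _) hφV
    rintro _ ⟨x, hx, rfl⟩
    exact Submodule.subset_span ⟨P • x, hstab P x hx, rfl⟩
  · refine (smul_eq_zero.1 ((heig a).symm.trans ?_)).resolve_right hφ0
    have hle : V ≤ LinearMap.ker (opC O S K a) := by
      refine Submodule.span_le.2 ?_
      rintro _ ⟨x, hx, rfl⟩
      show opC O S K a (toHomC (P • x)) = 0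
      rw [← toHomC_smul, smul_comm, ha x hx, smul_zero, map_zero]
    exact hle hφV

end Eigen

section Gamma0

variable {L : ℕ} [NeZero L] {O : Type} [CommRing O] [Algebra O ℂ] {S : Finset ℕ}

/-- The system of an eigenclass of `Γ₀(L)` is that of a normalised eigenform of level `L`. -/
theorem exists_eigenform_of_class {φ : HomC (⊤ : Subgroup (ZMod L)ˣ)} (hφ0 : φ ≠ 0)
    (hφ : φ ∈ parabolicHoms ℂ (gammaH L (⊤ : Subgroup (ZMod L)ˣ)) ℂ)
    (θ : OpRing O L S →ₐ[O] ℂ) (heig : ∀ a, opC O S ⊤ a φ = θ a • φ) :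
    ∃ G : CuspForm (Gamma0 L) 2, G.IsNormalizedEigenform ∧
      ∀ i : {ℓ : ℕ // ℓ.Prime ∧ ℓ ∉ S}, qCoeff G i.1 = θ (X (Sum.inr i)) := by
  have hneg : (-1 : (ZMod L)ˣ) ∈ (⊤ : Subgroup (ZMod L)ˣ) := Subgroup.mem_top _
  have hdia : ∀ u, diamond L ⊤ ℂ u φ = ((1 : (ZMod L)ˣ →* ℂˣ) u : ℂ) • φ := fun u => by
    rw [MonoidHom.one_apply, Units.val_one, one_smul]
    exact diamond_top ℂ u φ
  set a : ℕ → ℂ := fun l => if h : l.Prime ∧ l ∉ S then θ (X (Sum.inr ⟨l, h⟩)) else 0 with ha
  obtain ⟨f, lam, hf, hf1, hseq, -, hla⟩ := exists_eigenForm (S := S) (a := a) hneg hφ hφ0 hdia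
    fun l _ hlS => by
      have h := heig (X (Sum.inr ⟨l, Fact.out, hlS⟩))
      rw [opC_inr] at h
      rw [h, ha]
      simp only [dif_pos (⟨Fact.out, hlS⟩ : l.Prime ∧ l ∉ S)]
  set G := toGamma0 f hf with hGdef
  have hcoe : ∀ n, qCoeff G n = qCoeff f n := fun _ => rfl
  have hG1 : qCoeff G 1 = 1 := (hcoe 1).trans hf1
  have hne : G ≠ 0 := fun h => by
    rw [h] at hG1
    exact zero_ne_one
      ((((Newforms.coeffLin (N := L) (k := 2) 1).map_zero).symm).trans hG1)
  have hG : G.IsNormalizedEigenform := by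
    have h := HeckeDuality.isNormalizedEigenform_of_eigen hne lam fun q hq =>
      (Newforms.hOp_eq_smul_iff hq G _).2 fun n => by
        simp only [hcoe]
        have := hseq q hq n
        rwa [nebWeight, toDir_one_natCast hq] at this
    simpa [hG1] using h.2.1
  refine ⟨G, hG, fun i => ?_⟩
  rw [hcoe]
  have h := hseq i.1 i.2.1 1
  rw [if_neg i.2.1.not_dvd_one, hf1, one_mul, add_zero, mul_one, hla i.1 i.2.1 i.2.2] at h
  rw [h, ha]
  simp only [dif_pos i.2]

end Gamma0

section Restrict

variable {O : Type} [CommRing O] {L : ℕ} {S T : Finset ℕ} {K : Subgroup (ZMod L)ˣ}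

/-- The operators outside `T` among those outside `S`, for `S ⊆ T`. -/
def inclOp (O : Type) [CommRing O] (L : ℕ) (h : S ⊆ T) : OpRing O L T →ₐ[O] OpRing O L S :=
  rename (Sum.map id fun i => ⟨i.1, i.2.1, fun hS => i.2.2 (h hS)⟩)

/-- The same classes over the operators outside `S`. -/
def castMod (O : Type) [CommRing O] (K : Subgroup (ZMod L)ˣ) (S T : Finset ℕ) (A : Type)
    [AddCommGroup A] [Module O A] : HomMod O T K A ≃ₗ[O] HomMod O S K A :=
  LinearEquiv.refl O _

theorem inclOp_smul (h : S ⊆ T) {A : Type} [AddCommGroup A] [Module O A] (a : OpRing O L T)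
    (x : HomMod O T K A) :
    inclOp O L h a • castMod O K S T A x = castMod O K S T A (a • x) := by
  induction a using MvPolynomial.induction_on generalizing x with
  | C c => rw [inclOp, rename_C, ← algebraMap_eq, ← algebraMap_eq, algebraMap_smul,
      algebraMap_smul, map_smul]
  | add a b ha hb => rw [map_add, add_smul, ha, hb, add_smul, map_add]
  | mul_X a i ih =>
    rw [map_mul, mul_smul, mul_smul, ← ih]
    congr 1
    rcases i with u | ℓ
    · simp only [inclOp, rename_X, Sum.map_inl, id]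
      rw [X_inl_smul, X_inl_smul]
      rfl
    · have : Fact ℓ.1.Prime := ⟨ℓ.2.1⟩
      simp only [inclOp, rename_X, Sum.map_inr]
      rw [X_inr_smul, X_inr_smul]
      rfl

theorem opRes_inclOp [IsLocalRing O] (abar : ℕ → ResidueField O) (h : S ⊆ T) (a : OpRing O L T) :
    opRes S abar L (inclOp O L h a) = opRes T abar L a := by
  have : (opRes S abar L).comp (inclOp O L h) = opRes T abar L :=
    MvPolynomial.algHom_ext fun i => by rcases i with u | ℓ <;> simp [inclOp, opRes]
  exact DFunLike.congr_fun this a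

end Restrict

/-- At level `L` the residual eigenvalues outside `T` force those outside `S`. -/
def IsRigidPair {k : Type} [Field k] (abar : ℕ → k) (L : ℕ) (S T : Finset ℕ) : Prop :=
  ∀ (g : CuspForm (Gamma0 L) 2), g.IsNormalizedEigenform →
    ∀ φ : integralClosure ℤ ℂ →+* AlgebraicClosure k,
      (∀ ℓ : ℕ, ℓ.Prime → ℓ ∉ T → ∀ a : integralClosure ℤ ℂ, (a : ℂ) = qCoeff g ℓ →
        φ a = algebraMap k _ (abar ℓ)) →
      ∀ ℓ : ℕ, ℓ.Prime → ℓ ∉ S → ∀ a : integralClosure ℤ ℂ, (a : ℂ) = qCoeff g ℓ →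
        φ a = algebraMap k _ (abar ℓ)

variable {O : Type} [CommRing O] [IsDomain O] [IsDiscreteValuationRing O]
  [IsAdicComplete (maximalIdeal O) O] [CharZero O] {L : ℕ} [NeZero L] {S T : Finset ℕ}
  {abar : ℕ → ResidueField O}

/-- Localising at fewer excluded primes changes nothing when the pair is rigid. -/
theorem mem_localPart_castMod_iff (hST : S ⊆ T)
    (hσ : ∃ σ : O →+* ℂ, Function.Injective σ) (hL : Squarefree L)
    (hT : ∀ v : ℕ, v.Prime → v ∣ L → v ∈ T)
    (hEis : ∃ ℓ : ℕ, ℓ.Prime ∧ ℓ ∉ T ∧ abar ℓ ≠ 1 + (ℓ : ResidueField O))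
    (hrig : IsRigidPair abar L S T) {e : OpRing O L T} {e' : OpRing O L S}
    (he : IsLocalizer (resIdeal T abar L) (Classes O T L) e)
    (he' : IsLocalizer (resIdeal S abar L) (Classes O S L) e') (x : Classes O T L) :
    castMod O ⊤ S T O x ∈ localPart O e' (Classes O S L) ↔ x ∈ localPart O e (Classes O T L) := by
  set c := castMod O (⊤ : Subgroup (ZMod L)ˣ) S T O
  set f := inclOp O L hST e
  have hf : ∀ y, f • c y = c (e • y) := fun y => inclOp_smul hST e y
  have hf1 : f ∉ resIdeal S abar L := fun h => by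
    rw [mem_resIdeal, opRes_inclOp] at h
    have h1 := (mem_resIdeal (S := T) (abar := abar)).1 he.sub_one_mem
    rw [map_sub, map_one, h, zero_sub, neg_eq_zero] at h1
    exact one_ne_zero h1
  have hff : ∀ y, f • f • c y = f • c y := fun y => by rw [hf, hf, he.idem]
  constructor
  · intro hx
    rw [mem_localPart] at hx ⊢
    refine c.injective ?_
    rw [← hf]
    refine sub_eq_zero.1 (he'.eq_zero_of_smul_eq_zero hf1 (x := f • c x - c x) ?_ ?_)
    · rw [smul_sub, smul_comm, hx]
    · rw [smul_sub, hff, sub_self]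
  · intro hx
    rw [mem_localPart] at hx
    have hfx : f • c x = c x := by rw [hf, hx]
    by_contra hne
    let C : Submodule O (Classes O S L) :=
      { carrier := {y | f • y = y ∧ e' • y = 0}
        zero_mem' := ⟨smul_zero _, smul_zero _⟩
        add_mem' := fun {y z} hy hz => ⟨by rw [smul_add, hy.1, hz.1],
          by rw [smul_add, hy.2, hz.2, add_zero]⟩
        smul_mem' := fun r y hy => ⟨by rw [smul_comm, hy.1],
          by rw [smul_comm, hy.2, smul_zero]⟩ }
    have hC : C ≠ ⊥ := (Submodule.ne_bot_iff C).2 ⟨c x - e' • c x,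
      ⟨by rw [smul_sub, smul_comm, hfx], by rw [smul_sub, he'.idem, sub_self]⟩,
      sub_ne_zero.2 fun h => hne (mem_localPart.2 h.symm)⟩
    obtain ⟨σ, hσ⟩ := hσ
    let : Algebra O ℂ := σ.toAlgebra
    obtain ⟨ℓ₀, hℓp, hℓT, hℓ₀⟩ := hEis
    obtain ⟨P, hP, hpar⟩ := exists_parabolicOp (K := (⊤ : Subgroup (ZMod L)ˣ)) T abar hL
      (Subgroup.mem_top _) hℓp hℓT (fun h => hℓT (hT ℓ₀ hℓp h)) hℓ₀
    obtain ⟨θ, φ, hφ0, hφ, -, heig, hkill⟩ := exists_eigen_of_submodule (O := O) hσ
      (P := inclOp O L hST P)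
      (fun ψ => by
        rw [show ψ = castMod O ⊤ S T ℂ ((castMod O ⊤ S T ℂ).symm ψ) from
          (LinearEquiv.apply_symm_apply _ _).symm, inclOp_smul]
        exact hpar ℂ _)
      hC (fun a y hy => ⟨by rw [smul_comm, hy.1], by rw [smul_comm, hy.2, smul_zero]⟩)
      (fun y hy h => by
        obtain ⟨z, rfl⟩ := c.surjective y
        have hz : e • z = z := c.injective (by rw [← hf]; exact hy.1)
        rw [inclOp_smul, LinearEquiv.map_eq_zero_iff] at h
        rw [he.eq_zero_of_smul_eq_zero hP hz h, map_zero])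
    obtain ⟨G, hG, hGθ⟩ := exists_eigenform_of_class hφ0 hφ θ heig
    obtain ⟨red, hred⟩ := exists_red O hσ
    let incl : integralClosure ℤ ℂ →+* integralClosure O ℂ :=
      (integralClosure ℤ ℂ).val.toRingHom.codRestrict (integralClosure O ℂ).toSubring
        fun z => (z.2 : IsIntegral ℤ (z : ℂ)).tower_top
    obtain ⟨θ₀, hθ₀⟩ := GaloisReps.exists_eigenform_character hG
    have hθT : ∀ b, localAct O e (Classes O T L) b = 0 → θ (inclOp O L hST b) = 0 := fun b hb =>
      hkill _ fun y hy => by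
        obtain ⟨z, rfl⟩ := c.surjective y
        have hz : z ∈ localPart O e (Classes O T L) := c.injective (by rw [← hf]; exact hy.1)
        rw [inclOp_smul, show b • z = 0 from
          congrArg Subtype.val (LinearMap.congr_fun hb ⟨z, hz⟩), map_zero]
    have hall := hrig G hG (red.comp incl) fun ℓ hℓ hℓT' a ha => by
      have h := red_character he (θ.comp (inclOp O L hST)) hθT hred
        (X (Sum.inr ⟨ℓ, hℓ, hℓT'⟩)) (z := incl a)
        (by
          rw [AlgHom.comp_apply, inclOp, rename_X, Sum.map_inr]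
          exact ha.trans (hGθ ⟨ℓ, hℓ, fun hS => hℓT' (hST hS)⟩))
      rw [opRes_inr] at h
      exact h
    -- the system is integral and reduces to the residual one
    let θR : OpRing O L S →ₐ[O] integralClosure O ℂ := aeval (Sum.elim (fun _ => 1)
      fun i => incl (θ₀ (HeckeDuality.heckeOp L 2 i.1 i.2.1)))
    have hθR : θ = (integralClosure O ℂ).val.comp θR := by
      refine MvPolynomial.algHom_ext fun i => ?_
      rcases i with u | i
      · have h := heig (X (Sum.inl u))
        rw [opC_inl, show diamond L ⊤ ℂ u φ = φ from diamond_top ℂ u φ] at h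
        simp only [θR, AlgHom.comp_apply, aeval_X, Sum.elim_inl]
        exact (smul_left_injective ℂ hφ0 (h.symm.trans (one_smul ℂ φ).symm)).trans (map_one _).symm
      · simp only [θR, AlgHom.comp_apply, aeval_X, Sum.elim_inr]
        exact (hGθ i).symm.trans (hθ₀ i.1 i.2.1).symm
    have hredR : ∀ b, red (θR b) = algebraMap (ResidueField O) _ (opRes S abar L b) := fun b => by
      refine congrFun (congrArg DFunLike.coe (MvPolynomial.ringHom_ext
        (f := red.comp θR.toRingHom)
        (g := (algebraMap (ResidueField O) (AlgebraicClosure (ResidueField O))).comp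
          (opRes S abar L : OpRing O L S →+* ResidueField O)) (fun r => ?_) fun i => ?_)) b
      · show red (θR (MvPolynomial.C r)) =
          algebraMap (ResidueField O) _ (opRes S abar L (MvPolynomial.C r))
        rw [← algebraMap_eq, AlgHom.commutes, hred, AlgHom.commutes, ResidueField.algebraMap_eq]
      · show red (θR (X i)) = algebraMap (ResidueField O) _ (opRes S abar L (X i))
        rcases i with u | i
        · simp only [θR, aeval_X, Sum.elim_inl, opRes_inl, map_one]
        · simp only [θR, aeval_X, Sum.elim_inr, opRes_inr]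
          exact hall i.1 i.2.1 i.2.2 _ (hθ₀ i.1 i.2.1)
    have h0 : θR e' = 0 := Subtype.ext (by
      have h := hkill e' fun y hy => hy.2
      rwa [hθR] at h)
    have h1 : opRes S abar L e' = 1 := by
      rw [← sub_eq_zero, ← map_one (opRes S abar L), ← map_sub]
      exact he'.sub_one_mem
    have h2 := hredR e'
    rw [h0, h1, map_zero, map_one] at h2
    exact zero_ne_one h2

end Fermat.Agent.RT.Lifting
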