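import Fermat.Agent.RT.Lift.Local
import Fermat.Agent.RT.Lift.Bound
import Fermat.Agent.RT.GammaH.OldForms
import Fermat.Agent.RT.GammaH.EigenVector
import Fermat.Agent.RT.Lifting.TW.StableEigen

/-!
# One auxiliary prime

At a prime `q` at which no congruent newform is special the localised classes of level `M q` are,
by `(cor, star)`, two copies of those of level `M`: the composite with the degeneracy maps is
`(q + 1, T_q; T_q, q + 1)`, invertible when `abar q ^ 2 ≠ (q + 1) ^ 2`, and an eigenclass killed by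
both traces would come from level `M`, where `(q + 1) ^ 2 ≠ a_q ^ 2`.
-/

set_option autoImplicit false

noncomputable section

namespace Fermat.Agent.RT.Lifting

open CongruenceSubgroup MvPolynomial IsLocalRing ModularFormClass ModularCurve.Period
open Fermat.Agent.RT.GammaH Fermat.Agent.RT.Lift
open Fermat.Agent.LevelRaising (RaiseData)
open Fermat.Agent.Newforms (hOp levelIncl levelRaise)
open Fermat.Agent.Periods.Congruence (per perLin per_injective per_add_conj_injective)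
open scoped MatrixGroups ModularForm ComplexConjugate

section Forms

variable {L : ℕ} [NeZero L] {K : Subgroup (ZMod L)ˣ}

/-- The Hecke operators on a form of level `Γ₀(L)` seen on `Γ_H`. -/
theorem heckeForm_toFormH' (g : CuspForm (Gamma0 L) 2) {ℓ : ℕ} [hℓ : Fact ℓ.Prime] :
    heckeForm ℓ (toFormH (K := K) g) = toFormH (hOp L hℓ.out g) := by
  refine formH_ext fun n => ?_
  rw [qCoeff_heckeForm (isChiForm_toFormH g)]
  show _ = qCoeff (hOp L hℓ.out g) n
  rw [HeckeDuality.coeff_heckeOp, seqOp, nebWeight, toDir_one_natCast hℓ.out]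
  rfl

theorem toFormH_injective : Function.Injective (toFormH (M := L) (K := K)) :=
  fun _ _ h => DFunLike.ext _ _ fun τ => DFunLike.congr_fun h τ

theorem toFormH_add (f g : CuspForm (Gamma0 L) 2) :
    toFormH (K := K) (f + g) = toFormH f + toFormH g := DFunLike.ext _ _ fun _ => rfl

theorem toFormH_smul (c : ℂ) (f : CuspForm (Gamma0 L) 2) :
    toFormH (K := K) (c • f) = c • toFormH f := DFunLike.ext _ _ fun _ => rfl

theorem per_add (f g : FormH L K) : per (f + g) = per f + per g :=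
  map_add (perLin Gamma_le_gammaH) f g

end Forms

section Periods

variable {M q : ℕ} [NeZero M] [NeZero (M * q)]

local notation "Kq" => liftSub q (⊤ : Subgroup (ZMod M)ˣ)

/-- The periods of an included form are restricted. -/
theorem per_toFormH_levelIncl (hd : M ∣ M * q) (u : CuspForm (Gamma0 M) 2) :
    per (toFormH (K := Kq) (levelIncl hd u)) =
      resDeg ℂ q ⊤ (per (toFormH (K := (⊤ : Subgroup (ZMod M)ˣ)) u)) := by
  refine Periods.Congruence.per_opOf admissible_rRep (fun _ => by simp) Gamma_le_gammaH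
    (toFormH (K := (⊤ : Subgroup (ZMod M)ˣ)) u) _ ?_
  show ⇑(levelIncl hd u) = ∑ i : Unit, ⇑u ∣[(2 : ℤ)] (1 : GLR)
  rw [Fintype.sum_unique, SlashAction.slash_one, Newforms.coe_levelIncl]

/-- The periods of a raised form are conjugated, up to `q⁻¹`. -/
theorem per_toFormH_levelRaise (h : RaiseData q M) (hd : q * M ∣ M * q)
    (v : CuspForm (Gamma0 M) 2) :
    per (toFormH (K := Kq) (levelRaise q hd v)) =
      (q : ℂ)⁻¹ • conjDeg h ℂ ⊤ (per (toFormH (K := (⊤ : Subgroup (ZMod M)ˣ)) v)) := by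
  have hq : (q : ℂ) ≠ 0 := Nat.cast_ne_zero.2 h.prime.ne_zero
  have key : per ((q : ℂ) • toFormH (K := Kq) (levelRaise q hd v)) =
      conjDeg h ℂ ⊤ (per (toFormH (K := (⊤ : Subgroup (ZMod M)ˣ)) v)) := by
    refine Periods.Congruence.per_opOf (admissible_aRep h)
      (fun _ => det_pos_of_isIntMat (isIntMat_aRep h)
        (by simpa [Matrix.det_fin_two_of] using h.prime.pos))
      Gamma_le_gammaH (toFormH (K := (⊤ : Subgroup (ZMod M)ˣ)) v) _ ?_
    show (q : ℂ) • ⇑(levelRaise q hd v) = ∑ i : Unit, ⇑v ∣[(2 : ℤ)] aRep q i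
    rw [Fintype.sum_unique]
    show (q : ℂ) • (((q : ℂ) ^ ((2 : ℤ) - 1))⁻¹ • (⇑v ∣[(2 : ℤ)] ModularForm.heckeDiagMatrix q)) = _
    rw [show ((2 : ℤ) - 1) = 1 by norm_num, zpow_one, smul_smul, mul_inv_cancel₀ hq, one_smul]
    rfl
  rw [← key, per_smul, smul_smul, inv_mul_cancel₀ hq, one_smul]

theorem resDeg_conjHom (φ : Additive (gammaH M (⊤ : Subgroup (ZMod M)ˣ)) →+ ℂ) :
    resDeg ℂ q ⊤ (conjHom φ) = conjHom (resDeg ℂ q ⊤ φ) :=
  opOf_comp_coeff _ _ φ

theorem conjDeg_conjHom (h : RaiseData q M)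
    (φ : Additive (gammaH M (⊤ : Subgroup (ZMod M)ˣ)) →+ ℂ) :
    conjDeg h ℂ ⊤ (conjHom φ) = conjHom (conjDeg h ℂ ⊤ φ) :=
  opOf_comp_coeff _ _ φ

/-- **An eigenclass of level `M q` which is not new at `q` and is killed by both traces
vanishes.** -/
theorem eq_zero_of_cor_star (h : RaiseData q M) (hsq : Squarefree (M * q)) {T : Finset ℕ}
    (hT : ∀ ℓ : ℕ, ℓ.Prime → ℓ ∣ M * q → ℓ ∈ T) (a : ℕ → ℂ)
    (hnew : ∀ (M' : ℕ) (g : CuspForm (Gamma0 M') 2), g.IsNewform → M' ∣ M * q →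
      (∀ ℓ : ℕ, ℓ.Prime → ℓ ∉ T → qCoeff g ℓ = a ℓ) → ¬ q ∣ M')
    {φ : Additive (gammaH (M * q) Kq) →+ ℂ}
    (hφ : φ ∈ parabolicHoms ℂ (gammaH (M * q) Kq) ℂ)
    (heig : ∀ (ℓ : ℕ) [Fact ℓ.Prime], ℓ ∉ T → hecke (M * q) Kq ℓ ℂ φ = a ℓ • φ)
    (hcor : corDeg h ℂ ⊤ φ = 0) (hstar : starDeg h ℂ ⊤ φ = 0) : φ = 0 := by
  have : Fact q.Prime := ⟨h.prime⟩
  have hqN : ¬ q ∣ M := h.not_dvd
  obtain ⟨f, g, rfl⟩ := exists_per_add_conjHom (K := Kq) (Subgroup.mem_top _) hφ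
  obtain ⟨hf, hg⟩ := chiForms_of_diamond (χ' := (1 : (ZMod (M * q))ˣ →* ℂˣ)) (f := f) (g := g)
    fun u => by
      rw [MonoidHom.one_apply, Units.val_one, one_smul]
      exact diamond_top ℂ u _
  have h1c : (Units.map (starRingEnd ℂ).toMonoidHom).comp (1 : (ZMod (M * q))ˣ →* ℂˣ) = 1 :=
    MonoidHom.ext fun u => Units.ext (map_one (starRingEnd ℂ))
  rw [h1c] at hg
  set F := toGamma0 f hf
  set G := toGamma0 g hg
  have hfF : f = toFormH (K := Kq) F := DFunLike.ext _ _ fun _ => rfl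
  have hgG : g = toFormH (K := Kq) G := DFunLike.ext _ _ fun _ => rfl
  have key : ∀ (ℓ : ℕ) (hℓ : ℓ.Prime), ℓ ∉ T →
      hOp (M * q) hℓ F = a ℓ • F ∧ hOp (M * q) hℓ G = conj (a ℓ) • G := by
    intro ℓ hℓ hℓT
    have : Fact ℓ.Prime := ⟨hℓ⟩
    have h0 : per (heckeForm ℓ f - a ℓ • f) +
        conjHom (per (heckeForm ℓ g - conj (a ℓ) • g)) = 0 := by
      have h' := heig ℓ hℓT
      rw [map_add, hecke_conjHom, ← per_heckeForm, ← per_heckeForm] at h'
      refine AddMonoidHom.ext fun x => ?_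
      have hx := DFunLike.congr_fun h' x
      simp only [per_sub, per_smul, AddMonoidHom.add_apply, AddMonoidHom.sub_apply, conjHom_apply,
        AddMonoidHom.smul_apply, AddMonoidHom.zero_apply, smul_eq_mul, map_sub, map_mul,
        Complex.conj_conj] at hx ⊢
      linear_combination hx
    obtain ⟨e1, e2⟩ := per_add_conj_injective Gamma_le_gammaH
      (fun γ => DFunLike.congr_fun h0 (Additive.ofMul γ))
    rw [sub_eq_zero, hfF, heckeForm_toFormH', ← toFormH_smul] at e1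
    rw [sub_eq_zero, hgG, heckeForm_toFormH', ← toFormH_smul] at e2
    exact ⟨toFormH_injective e1, toFormH_injective e2⟩
  have hFmem : F ∈ eigForms (M * q) T a := mem_eigForms.2 fun ℓ hℓ hℓT => (key ℓ hℓ hℓT).1
  have hGmem : G ∈ eigForms (M * q) T a := mem_eigForms.2 fun ℓ hℓ hℓT => by
    have e := (key ℓ hℓ hℓT).2
    rcases eq_or_ne G 0 with h0 | h0
    · rw [h0, map_zero, smul_zero]
    · have hc := (Newforms.isPetersson_hOp hℓ fun hd => hℓT (hT ℓ hℓ hd)).conj_eigenvalue h0 e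
      rw [Complex.conj_conj] at hc
      rwa [← hc] at e
  have hold := eigForms_le_old h.prime M hsq hT hnew
  obtain ⟨_, ⟨u₁, hu₁, rfl⟩, _, ⟨v₁, hv₁, rfl⟩, hF⟩ := Submodule.mem_sup.1 (hold hFmem)
  obtain ⟨_, ⟨u₂, hu₂, rfl⟩, _, ⟨v₂, hv₂, rfl⟩, hG⟩ := Submodule.mem_sup.1 (hold hGmem)
  let P : CuspForm (Gamma0 M) 2 → CuspForm (Gamma0 M) 2 →
      Additive (gammaH M (⊤ : Subgroup (ZMod M)ˣ)) →+ ℂ :=
    fun u u' => per (toFormH u) + conjHom (per (toFormH u'))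
  set α := P u₁ u₂
  set β := (q : ℂ)⁻¹ • P v₁ v₂
  have hφeq : per f + conjHom (per g) = resDeg ℂ q ⊤ α + conjDeg h ℂ ⊤ β := by
    rw [hfF, hgG, ← hF, ← hG, toFormH_add, toFormH_add, per_add, per_add, per_toFormH_levelIncl,
      per_toFormH_levelIncl, per_toFormH_levelRaise h, per_toFormH_levelRaise h]
    simp only [α, β, P, map_add, map_smul, smul_add, resDeg_conjHom, conjDeg_conjHom]
    refine AddMonoidHom.ext fun x => ?_
    simp only [AddMonoidHom.add_apply, conjHom_apply, AddMonoidHom.smul_apply, smul_eq_mul,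
      map_add, map_mul, map_inv₀, Complex.conj_natCast]
    ring
  rcases eq_or_ne (eigForms M T a) ⊥ with hbot | hbot
  · have h0 : ∀ u ∈ eigForms M T a, u = 0 := fun u hu => (Submodule.mem_bot ℂ).1 (hbot ▸ hu)
    rw [hφeq]
    simp only [α, β, P, h0 _ hu₁, h0 _ hu₂, h0 _ hv₁, h0 _ hv₂]
    rw [show (toFormH (0 : CuspForm (Gamma0 M) 2) : FormH M (⊤ : Subgroup (ZMod M)ˣ)) = 0 from
      DFunLike.ext _ _ fun _ => rfl, Periods.Congruence.per_zero Gamma_le_gammaH]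
    simp [conjHom]
  obtain ⟨w, hw, hw0⟩ := (Submodule.ne_bot_iff _).1 hbot
  obtain ⟨u₀, hu₀, hu₀l⟩ := Newforms.exists_eigenform_of_eigen hw0 (· ∉ T) a (mem_eigForms.1 hw)
  have hu₀mem : u₀ ∈ eigForms M T a := mem_eigForms.2 fun ℓ hℓ hℓT => by
    rw [Newforms.hOp_of_isNormalizedEigenform hu₀ hℓ, hu₀l ℓ hℓ hℓT]
  obtain ⟨c, hc⟩ := exists_hOp_eq_smul M T a h.prime hqN
  have hcu : c = qCoeff u₀ q := by
    have e := hc u₀ hu₀mem
    rw [Newforms.hOp_of_isNormalizedEigenform hu₀ h.prime] at e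
    exact (smul_left_injective ℂ hu₀.ne_zero e).symm
  have hcne : c ^ 2 ≠ ((q : ℂ) + 1) ^ 2 := hcu ▸ qCoeff_sq_ne h.prime hqN hu₀
  have hcr : conj c = c := hcu ▸ Newforms.conj_qCoeff hu₀ h.prime hqN
  have hT' : ∀ u ∈ eigForms M T a,
      hecke M ⊤ q ℂ (per (toFormH (K := (⊤ : Subgroup (ZMod M)ˣ)) u)) = c • per (toFormH u) :=
    fun u hu => by
      rw [← per_heckeForm, heckeForm_toFormH', hc u hu, toFormH_smul, per_smul]
  have hTP : ∀ u ∈ eigForms M T a, ∀ u' ∈ eigForms M T a,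
      hecke M ⊤ q ℂ (P u u') = c • P u u' := fun u hu u' hu' => by
    simp only [P, map_add, hecke_conjHom, hT' u hu, hT' u' hu', conjHom_smul, hcr, smul_add]
  have hTα : hecke M ⊤ q ℂ α = c • α := hTP _ hu₁ _ hu₂
  have hTβ : hecke M ⊤ q ℂ β = c • β := by
    simp only [β, map_smul, hTP _ hv₁ _ hv₂, smul_comm c]
  have e1 : ((q : ℂ) + 1) • α + c • β = 0 := by
    rw [hφeq, map_add, corDeg_resDeg, corDeg_conjDeg,
      show diamond M ⊤ ℂ (qUnit h)⁻¹ β = β from diamond_top ℂ _ β, hTβ,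
      ← Nat.cast_smul_eq_nsmul ℂ, Nat.cast_add, Nat.cast_one] at hcor
    exact hcor
  have e2 : c • α + ((q : ℂ) + 1) • β = 0 := by
    rw [hφeq, map_add, starDeg_resDeg, starDeg_conjDeg, hTα,
      ← Nat.cast_smul_eq_nsmul ℂ, Nat.cast_add, Nat.cast_one] at hstar
    exact hstar
  have hd : ((q : ℂ) + 1) ^ 2 - c ^ 2 ≠ 0 := sub_ne_zero.2 hcne.symm
  have hα : (((q : ℂ) + 1) ^ 2 - c ^ 2) • α = 0 := by
    linear_combination (norm := module) ((q : ℂ) + 1) • e1 - c • e2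
  have hβ : (((q : ℂ) + 1) ^ 2 - c ^ 2) • β = 0 := by
    linear_combination (norm := module) ((q : ℂ) + 1) • e2 - c • e1
  rw [hφeq, (smul_eq_zero.1 hα).resolve_left hd, (smul_eq_zero.1 hβ).resolve_left hd, map_zero,
    map_zero, add_zero]

end Periods

section Integral

variable {O : Type} [CommRing O] [IsDomain O] [IsDiscreteValuationRing O]
  [IsAdicComplete (maximalIdeal O) O] [CharZero O] {M q : ℕ} [NeZero M] [NeZero (M * q)]
  {T : Finset ℕ} {abar : ℕ → ResidueField O}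

local notation "Kq" => liftSub q (⊤ : Subgroup (ZMod M)ˣ)

/-- `(cor, star)` is injective on the localised classes of level `M q`. -/
theorem eq_zero_of_degStarH (h : RaiseData q M) (hσ : ∃ σ : O →+* ℂ, Function.Injective σ)
    (hsq : Squarefree (M * q)) (hT : ∀ ℓ : ℕ, ℓ.Prime → ℓ ∣ M * q → ℓ ∈ T) (hqT : q ∈ T)
    (hEis : ∃ ℓ : ℕ, ℓ.Prime ∧ ℓ ∉ T ∧ abar ℓ ≠ 1 + (ℓ : ResidueField O))
    (hnew : ∀ (M' : ℕ) (g : CuspForm (Gamma0 M') 2), g.IsNewform → M' ∣ M * q →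
      IsCongruentForm T abar g → ¬ q ∣ M')
    {e : OpRing O (M * q) T}
    (he : IsLocalizer (resIdeal T abar (M * q)) (HomMod O T Kq O) e)
    {x : HomMod O T Kq O} (hx : e • x = x) (h0 : degStarH O T h ⊤ 0 x = 0) : x = 0 := by
  by_contra hx0
  let D : Submodule O (HomMod O T Kq O) :=
    localPart O e (HomMod O T Kq O) ⊓ LinearMap.ker (degStarH O T h ⊤ 0)
  have hD : D ≠ ⊥ := (Submodule.ne_bot_iff D).2 ⟨x, ⟨hx, h0⟩, hx0⟩
  obtain ⟨σ, hσ⟩ := hσ
  let : Algebra O ℂ := σ.toAlgebra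
  obtain ⟨ℓ₀, hℓp, hℓT, hℓ₀⟩ := hEis
  obtain ⟨P, hP, hpar⟩ := exists_parabolicOp (K := Kq) T abar hsq (Subgroup.mem_top _) hℓp hℓT
    (fun h => hℓT (hT ℓ₀ hℓp h)) hℓ₀
  obtain ⟨θ, φ, hφ0, hφ, hspan, heig, hkill⟩ := exists_eigen_of_submodule (O := O) hσ (P := P)
    (hpar ℂ) hD
    (fun b y hy => ⟨smul_mem_localPart b hy.1, by
      show degStarH O T h ⊤ 0 (b • y) = 0
      rw [degStarH_smul h hqT, LinearMap.mem_ker.1 hy.2, smul_zero]⟩)
    (fun y hy h => he.eq_zero_of_smul_eq_zero hP hy.1 h)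
  have hθ : ∀ b, localAct O e (HomMod O T Kq O) b = 0 → θ b = 0 := fun b hb =>
    hkill b fun y hy => congrArg Subtype.val (LinearMap.congr_fun hb ⟨y, hy.1⟩)
  -- the traces kill `φ`
  have hcs : corDeg h ℂ ⊤ φ = 0 ∧ starDeg h ℂ ⊤ φ = 0 := by
    have hle : Submodule.span ℂ (toHomC '' (D : Set (HomMod O T Kq O))) ≤
        LinearMap.ker (corDeg h ℂ (⊤ : Subgroup (ZMod M)ˣ)) ⊓
          LinearMap.ker (starDeg h ℂ (⊤ : Subgroup (ZMod M)ˣ)) := by
      refine Submodule.span_le.2 ?_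
      rintro _ ⟨y, hy, rfl⟩
      obtain ⟨h1, h2⟩ := Prod.ext_iff.1 (LinearMap.mem_ker.1 hy.2)
      have h2' : starDeg h O ⊤ (toHomMod.symm y) = 0 := (diamond_top O _ _).symm.trans h2
      have hc : toHomC y = (Algebra.linearMap O ℂ).toAddMonoidHom.comp (toHomMod.symm y) := rfl
      refine ⟨LinearMap.mem_ker.2 ?_, LinearMap.mem_ker.2 ?_⟩ <;> rw [hc]
      · unfold corDeg
        rw [opOf_comp_coeff (R := O)]
        exact (congrArg (AddMonoidHom.comp _) h1).trans (AddMonoidHom.comp_zero _)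
      · unfold starDeg
        rw [opOf_comp_coeff (R := O)]
        exact (congrArg (AddMonoidHom.comp _) h2').trans (AddMonoidHom.comp_zero _)
    exact ⟨LinearMap.mem_ker.1 (hle hspan).1, LinearMap.mem_ker.1 (hle hspan).2⟩
  set a : ℕ → ℂ := fun l => if hl : l.Prime ∧ l ∉ T then θ (X (Sum.inr ⟨l, hl⟩)) else 0 with ha
  refine hφ0 (eq_zero_of_cor_star h hsq hT a (fun M' g hg hM' hga => ?_) hφ (fun ℓ _ hℓT' => ?_)
    hcs.1 hcs.2)
  · obtain ⟨red, hred⟩ := exists_red O hσ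
    let incl : integralClosure ℤ ℂ →+* integralClosure O ℂ :=
      (integralClosure ℤ ℂ).val.toRingHom.codRestrict (integralClosure O ℂ).toSubring
        fun z => (z.2 : IsIntegral ℤ (z : ℂ)).tower_top
    refine hnew M' g hg hM' ⟨hg.1, red.comp incl, fun ℓ hℓ hℓT' z hz => ?_⟩
    have hred' := red_character he θ hθ hred (X (Sum.inr ⟨ℓ, hℓ, hℓT'⟩)) (z := incl z) (by
      refine hz.trans ((hga ℓ hℓ hℓT').trans ?_)
      rw [ha]
      simp only [dif_pos (⟨hℓ, hℓT'⟩ : ℓ.Prime ∧ ℓ ∉ T)])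
    rw [opRes_inr] at hred'
    exact hred'
  · have h1 := heig (X (Sum.inr ⟨ℓ, Fact.out, hℓT'⟩))
    rw [opC_inr] at h1
    rw [h1, ha]
    simp only [dif_pos (⟨Fact.out, hℓT'⟩ : ℓ.Prime ∧ ℓ ∉ T)]

end Integral

end Fermat.Agent.RT.Lifting
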