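import Fermat.Agent.RT.GammaH.Module
import Fermat.Agent.RT.Lifting.TW.Step

/-!
# The localised classes at the auxiliary levels

By induction on the auxiliary primes the localised classes of level `M₀ q₁ ⋯ q_m` are `2 ^ m`
copies of those of level `M₀`, compatibly with the operators away from the level.
-/

set_option autoImplicit false

noncomputable section

namespace Fermat.Agent.RT.Lifting

open CongruenceSubgroup MvPolynomial IsLocalRing
open Fermat.Agent.RT.GammaH Fermat.Agent.RT.Lift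
open Fermat.Agent.LevelRaising (RaiseData)

variable {O : Type} [CommRing O] [IsDomain O] [IsDiscreteValuationRing O]
  [IsAdicComplete (maximalIdeal O) O] [CharZero O] {T : Finset ℕ} {abar : ℕ → ResidueField O}

/-- An auxiliary prime for the levels dividing `L`: no congruent newform is special at it, it is
regular, and its residual eigenvalue is forced by those outside `T`. -/
structure IsAuxiliary (abar : ℕ → ResidueField O) (T : Finset ℕ) (L q : ℕ) : Prop where
  prime : q.Prime
  regular : abar q ^ 2 ≠ ((q : ResidueField O) + 1) ^ 2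
  notNew : ∀ (M' : ℕ) (g : CuspForm (Gamma0 M') 2), g.IsNewform → M' ∣ L →
    IsCongruentForm T abar g → ¬ q ∣ M'
  rigid : ∀ N : ℕ, N ∣ L → ¬ q ∣ N → IsRigidPair abar N (T.erase q) T

omit [IsAdicComplete (maximalIdeal O) O] [CharZero O] in
theorem IsAuxiliary.of_dvd {L L' q : ℕ}
    (h : IsAuxiliary abar T L q) (hd : L' ∣ L) : IsAuxiliary abar T L' q :=
  ⟨h.prime, h.regular, fun M' g hg hM => h.notNew M' g hg (hM.trans hd),
    fun N hN => h.rigid N (hN.trans hd)⟩

/-- **One auxiliary prime doubles the localised classes.** -/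
theorem exists_stepEquiv {M q : ℕ} [NeZero M] [NeZero (M * q)]
    (hσ : ∃ σ : O →+* ℂ, Function.Injective σ) (hsq : Squarefree (M * q))
    (hT : ∀ ℓ : ℕ, ℓ.Prime → ℓ ∣ M * q → ℓ ∈ T)
    (hEis : ∃ ℓ : ℕ, ℓ.Prime ∧ ℓ ∉ T ∧ abar ℓ ≠ 1 + (ℓ : ResidueField O))
    (hq : IsAuxiliary abar T (M * q) q) {e : OpRing O (M * q) T}
    (he : IsLocalizer (resIdeal T abar (M * q)) (Classes O T (M * q)) e) {e₀ : OpRing O M T}
    (he₀ : IsLocalizer (resIdeal T abar M) (Classes O T M) e₀) :
    ∃ Φ : localPart O e (Classes O T (M * q)) ≃ₗ[O]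
        localPart O e₀ (Classes O T M) × localPart O e₀ (Classes O T M),
      ∀ (i : {ℓ : ℕ // ℓ.Prime ∧ ℓ ∉ T}) (x : localPart O e (Classes O T (M * q))),
        Φ (localAct O e (Classes O T (M * q)) (X (Sum.inr i)) x) =
          (localAct O e₀ (Classes O T M) (X (Sum.inr i)) (Φ x).1,
            localAct O e₀ (Classes O T M) (X (Sum.inr i)) (Φ x).2) := by
  classical
  have h : RaiseData q M := ⟨hq.prime, fun hd =>
    hq.prime.not_isUnit (hsq q (mul_dvd_mul hd dvd_rfl))⟩
  have : Fact q.Prime := ⟨hq.prime⟩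
  have hqT : q ∈ T := hT q hq.prime (dvd_mul_left q M)
  obtain ⟨f, hf, hf₀⟩ := exists_isLocalizer_pair (O := O) (M := M) (q := q) T
    (⊤ : Subgroup (ZMod M)ˣ) abar
  have hPe : localPart O e (Classes O T (M * q)) = localPart O f (Classes O T (M * q)) :=
    IsLocalizer.localPart_eq (resIdeal_ne_top T abar) he hf
  have hPe₀ : localPart O e₀ (Classes O T M) = localPart O (lowerOp O M q T f) (Classes O T M) :=
    IsLocalizer.localPart_eq (resIdeal_ne_top T abar) he₀ hf₀
  let ds : Classes O T (M * q) →ₗ[O] Classes O T M × Classes O T M := degStarH O T h ⊤ 0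
  have hds : ∀ x ∈ localPart O e (Classes O T (M * q)),
      (ds x).1 ∈ localPart O e₀ (Classes O T M) ∧ (ds x).2 ∈ localPart O e₀ (Classes O T M) := by
    intro x hx
    rw [hPe₀]
    rw [hPe] at hx
    exact degStarH_mem_localPart h hqT 0 hx
  let Φ₀ : localPart O e (Classes O T (M * q)) →ₗ[O]
      localPart O e₀ (Classes O T M) × localPart O e₀ (Classes O T M) :=
    (((LinearMap.fst O _ _).comp (ds.comp (Submodule.subtype _))).codRestrict _
      fun x => (hds x x.2).1).prod
    (((LinearMap.snd O _ _).comp (ds.comp (Submodule.subtype _))).codRestrict _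
      fun x => (hds x x.2).2)
  have hinj : Function.Injective Φ₀ := by
    refine LinearMap.ker_eq_bot.1 (LinearMap.ker_eq_bot'.2 fun x hx => Subtype.ext ?_)
    refine eq_zero_of_degStarH h hσ hsq hT hqT hEis hq.notNew he x.2 ?_
    exact Prod.ext (congrArg Subtype.val (congrArg Prod.fst hx))
      (congrArg Subtype.val (congrArg Prod.snd hx))
  have hsurj : Function.Surjective Φ₀ := by
    rintro ⟨⟨w₁, hw₁⟩, ⟨w₂, hw₂⟩⟩
    let S' := T.erase q
    have hsub : S' ⊆ T := Finset.erase_subset q T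
    obtain ⟨e', he'⟩ := exists_isLocalizer (O := O) (resIdeal S' abar M) (Classes O S' M)
    set c := castMod O (⊤ : Subgroup (ZMod M)ˣ) S' T O
    have hmem : ∀ w, c w ∈ localPart O e' (Classes O S' M) ↔ w ∈ localPart O e₀ (Classes O T M) :=
      fun w => mem_localPart_castMod_iff hsub hσ (hsq.squarefree_of_dvd (dvd_mul_right M q))
        (fun v hv hd => hT v hv (hd.mul_right q)) hEis
        (hq.rigid M (dvd_mul_right M q) h.not_dvd) he₀ he' w
    let i : {ℓ : ℕ // ℓ.Prime ∧ ℓ ∉ S'} := ⟨q, hq.prime, Finset.notMem_erase q T⟩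
    set Y : OpRing O M S' := C (((q : O) + 1) ^ 2) - X (Sum.inr i) ^ 2
    have hY : Y ∉ resIdeal S' abar M := fun hc => hq.regular (by
      simp only [Y, mem_resIdeal, map_sub, map_pow, opRes_inr, ← algebraMap_eq, AlgHom.commutes,
        ResidueField.algebraMap_eq, map_add, map_natCast, map_one, sub_eq_zero] at hc
      exact hc.symm)
    obtain ⟨t', ht'⟩ := he'.invert Y hY
    have key : ∀ z, z ∈ localPart O e' (Classes O S' M) → (Y * t') • z = z := fun z hz => by
      have h1 := ht' z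
      rwa [mul_smul (Y * t'), show e' • z = z from hz] at h1
    set z₁ := c w₁
    set z₂ := c w₂
    have m₁ := (hmem w₁).2 hw₁
    have m₂ := (hmem w₂).2 hw₂
    set x := t' • ((C ((q : O) + 1) : OpRing O M S') • z₁ - (X (Sum.inr i) : OpRing O M S') • z₂)
      with hxdef
    set y := t' • ((C ((q : O) + 1) : OpRing O M S') • z₂ - (X (Sum.inr i) : OpRing O M S') • z₁)
      with hydef
    have hx : x ∈ localPart O e' (Classes O S' M) := smul_mem_localPart _
      (sub_mem (smul_mem_localPart _ m₁) (smul_mem_localPart _ m₂))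
    have hy : y ∈ localPart O e' (Classes O S' M) := smul_mem_localPart _
      (sub_mem (smul_mem_localPart _ m₂) (smul_mem_localPart _ m₁))
    have hCq : (C (((q : O) + 1) ^ 2) : OpRing O M S') = C ((q : O) + 1) ^ 2 := map_pow _ _ _
    have e1 : (C ((q : O) + 1) : OpRing O M S') • x + (X (Sum.inr i) : OpRing O M S') • y = z₁ := by
      rw [hxdef, hydef]
      conv_rhs => rw [← key z₁ m₁]
      simp only [Y, hCq]
      module
    have e2 : (X (Sum.inr i) : OpRing O M S') • x + (C ((q : O) + 1) : OpRing O M S') • y = z₂ := by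
      rw [hxdef, hydef]
      conv_rhs => rw [← key z₂ m₂]
      simp only [Y, hCq]
      module
    have hC : ∀ z : Classes O S' M, (C ((q : O) + 1) : OpRing O M S') • z = (q + 1) • z := fun z => by
      rw [← algebraMap_eq, algebraMap_smul, ← Nat.cast_smul_eq_nsmul O (q + 1) z]
      push_cast
      rfl
    rw [hC, X_inr_smul] at e1 e2
    obtain ⟨x₀, hx₀e⟩ := c.surjective x
    obtain ⟨y₀, hy₀e⟩ := c.surjective y
    rw [← hx₀e] at hx e1 e2
    rw [← hy₀e] at hy e1 e2
    rw [hmem, hPe₀] at hx hy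
    set u : Classes O T (M * q) := degH O T h ⊤ 0 (x₀, y₀)
    have hu : u ∈ localPart O e (Classes O T (M * q)) := by
      rw [hPe]
      exact degH_mem_localPart h hqT 0 hx hy
    have hpair : ds u = (w₁, w₂) := by
      refine (degStar_degMap h O (K := (⊤ : Subgroup (ZMod M)ˣ)) (e := 0) (Subgroup.mem_top _)
        (x₀, y₀)).trans ?_
      have hsymT : ∀ z, symT h O (⊤ : Subgroup (ZMod M)ˣ) 0 z = hecke M ⊤ q O z :=
        fun z => diamond_top (A := O) O _ _
      refine Prod.ext ?_ ?_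
      · show (q + 1) • _ + symT h O _ 0 _ = w₁
        rw [hsymT]
        exact e1
      · show symT h O _ 0 _ + (q + 1) • _ = w₂
        rw [hsymT]
        exact e2
    exact ⟨⟨u, hu⟩, Prod.ext (Subtype.ext (congrArg Prod.fst hpair))
      (Subtype.ext (congrArg Prod.snd hpair))⟩
  refine ⟨LinearEquiv.ofBijective Φ₀ ⟨hinj, hsurj⟩, fun i x => ?_⟩
  have hcomm : ds ((X (Sum.inr i) : OpRing O (M * q) T) • (x : Classes O T (M * q))) =
      (X (Sum.inr i) : OpRing O M T) • ds x := by
    refine (degStarH_smul h hqT 0 _ _).trans ?_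
    rw [lowerOp, rename_X]
    rfl
  exact Prod.ext (Subtype.ext (congrArg Prod.fst hcomm)) (Subtype.ext (congrArg Prod.snd hcomm))

/-- **The localised classes at level `M₀ q₁ ⋯ q_m` are `2 ^ m` copies of those at level `M₀`.** -/
theorem exists_twEquiv {M₀ : ℕ} [NeZero M₀] (hσ : ∃ σ : O →+* ℂ, Function.Injective σ)
    (hEis : ∃ ℓ : ℕ, ℓ.Prime ∧ ℓ ∉ T ∧ abar ℓ ≠ 1 + (ℓ : ResidueField O))
    {e₀ : OpRing O M₀ T} (he₀ : IsLocalizer (resIdeal T abar M₀) (Classes O T M₀) e₀) :
    ∀ (m : ℕ) (qv : Fin m → ℕ) (L : ℕ) [NeZero L], L = M₀ * ∏ i, qv i → Squarefree L →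
      (∀ ℓ : ℕ, ℓ.Prime → ℓ ∣ L → ℓ ∈ T) → (∀ i, IsAuxiliary abar T L (qv i)) →
      ∀ e : OpRing O L T, IsLocalizer (resIdeal T abar L) (Classes O T L) e →
        ∃ Φ : localPart O e (Classes O T L) ≃ₗ[O] (Fin (2 ^ m) → localPart O e₀ (Classes O T M₀)),
          ∀ (i : {ℓ : ℕ // ℓ.Prime ∧ ℓ ∉ T}) (x : localPart O e (Classes O T L)) (j : Fin (2 ^ m)),
            Φ (localAct O e (Classes O T L) (X (Sum.inr i)) x) j =
              localAct O e₀ (Classes O T M₀) (X (Sum.inr i)) (Φ x j) := by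
  intro m
  induction m with
  | zero =>
    intro qv L _ hL _ _ _ e he
    rw [Fin.prod_univ_zero, mul_one] at hL
    subst hL
    have hP : localPart O e (Classes O T L) = localPart O e₀ (Classes O T L) :=
      IsLocalizer.localPart_eq (resIdeal_ne_top T abar) he he₀
    refine ⟨(LinearEquiv.ofEq _ _ hP).trans
      { toFun := fun x _ => x
        map_add' := fun _ _ => rfl
        map_smul' := fun _ _ => rfl
        invFun := fun g => g ⟨0, by simp⟩
        left_inv := fun _ => rfl
        right_inv := fun g => funext fun j => congrArg g (Fin.ext (by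
          have := j.2
          simp only [pow_zero] at this
          show 0 = (j : ℕ)
          omega)) }, fun i x j => ?_⟩
    exact Subtype.ext rfl
  | succ m ih =>
    intro qv L _ hL hsq hT haux e he
    rw [Fin.prod_univ_castSucc, ← mul_assoc] at hL
    obtain ⟨L', hL'⟩ : ∃ L', L' = M₀ * ∏ i : Fin m, qv i.castSucc := ⟨_, rfl⟩
    obtain ⟨q, hq⟩ : ∃ q, q = qv (Fin.last m) := ⟨_, rfl⟩
    rw [← hL', ← hq] at hL
    subst hL
    have hL'0 : NeZero L' := ⟨left_ne_zero_of_mul (NeZero.ne (L' * q))⟩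
    obtain ⟨e', he'⟩ := exists_isLocalizer (O := O) (resIdeal T abar L') (Classes O T L')
    obtain ⟨Φ₁, hΦ₁⟩ := exists_stepEquiv hσ hsq hT hEis (hq ▸ haux (Fin.last m)) he he'
    obtain ⟨Φ₂, hΦ₂⟩ := ih (fun i => qv i.castSucc) L' hL'
      (hsq.squarefree_of_dvd (dvd_mul_right L' q)) (fun ℓ hℓ hd => hT ℓ hℓ (hd.mul_right q))
      (fun i => (haux i.castSucc).of_dvd (dvd_mul_right L' q)) e' he'
    have hsum : 2 ^ m + 2 ^ m = 2 ^ (m + 1) := by rw [pow_succ]; omega
    let σi : Fin (2 ^ m) ⊕ Fin (2 ^ m) ≃ Fin (2 ^ (m + 1)) :=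
      finSumFinEquiv.trans (finCongr hsum)
    let Φ : localPart O e (Classes O T (L' * q)) ≃ₗ[O]
        (Fin (2 ^ (m + 1)) → localPart O e₀ (Classes O T M₀)) :=
      Φ₁.trans ((Φ₂.prodCongr Φ₂).trans
        ((LinearEquiv.sumArrowLequivProdArrow _ _ O _).symm.trans
          (LinearEquiv.funCongrLeft O _ σi.symm)))
    refine ⟨Φ, fun i x j => ?_⟩
    show Sum.elim (Φ₂ (Φ₁ _).1) (Φ₂ (Φ₁ _).2) (σi.symm j) =
      localAct O e₀ _ _ (Sum.elim (Φ₂ (Φ₁ x).1) (Φ₂ (Φ₁ x).2) (σi.symm j))
    rw [hΦ₁ i x]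
    rcases σi.symm j with k | k
    · exact hΦ₂ i _ k
    · exact hΦ₂ i _ k

end Fermat.Agent.RT.Lifting
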